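/-
S26 / Sch / CD / Alg : a prime of codimension one of an étale `K[y₁..y_g]`-algebra is principal near every `K`-point.
PURE ALGEBRA on top of `t7`, `et_cotangent`.
-/
import Fermat.Agent.S26.Alg.T7Final
import Fermat.Agent.S26.Alg.EtCot

set_option autoImplicit false

universe u

namespace Fermat.Agent.S26

/-- **LP**.  If `Q ≤ ker ε`: `t7` with `x i := y (X i) - algebraMap K B (ε (y (X i)))` and `et_cotangent`.
Otherwise take `s ∈ Q` with `ε s ≠ 0` and `h := s` (`s * p = p * s`). -/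
theorem lp_alg (K : Type u) [Field K] [IsAlgClosed K] (B : Type u) [CommRing B] [Algebra K B]
    [Algebra.FiniteType K B] (g : ℕ) (y : MvPolynomial (Fin g) K →ₐ[K] B) (hy : y.Etale)
    (ε : B →ₐ[K] K) (Q : Ideal B) [Q.IsPrime] (htr : Algebra.trdeg K (B ⧸ Q) + 1 = g) :
    ∃ h ∈ Q, ∃ s : B, ε s ≠ 0 ∧ ∀ p ∈ Q, ∃ b, s * p = b * h := by
  by_cases hQ : Q ≤ RingHom.ker ε
  · exact t7 K B ε g
      (fun i => y (MvPolynomial.X i) - algebraMap K B (ε (y (MvPolynomial.X i))))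
      (fun i => by rw [map_sub, AlgHom.commutes]; exact sub_self _)
      (et_cotangent K B g y hy ε) Q hQ htr
  · obtain ⟨s, hs, hs0⟩ := SetLike.not_le_iff_exists.1 hQ
    exact ⟨s, hs, s, fun h => hs0 (RingHom.mem_ker.2 h), fun p _ => ⟨p, mul_comm s p⟩⟩

/-- transcendence degree of a quotient in terms of a "generic point" (`T7_trdeg_eq`) -/
theorem lp_trdeg (K : Type u) [Field K] (B k : Type u) [CommRing B] [Algebra K B] [Field k] [Algebra K k]
    (γ γ' : B →ₐ[K] k) (hγ : ∀ z : k, ∃ b c : B, γ c ≠ 0 ∧ z * γ c = γ b)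
    (hγ' : ∀ z : k, ∃ b c : B, γ' c ≠ 0 ∧ z * γ' c = γ' b) :
    Algebra.trdeg K (B ⧸ RingHom.ker γ) = Algebra.trdeg K (B ⧸ RingHom.ker γ') := by
  rw [← T7_trdeg_eq K B k γ (fun z => by
      obtain ⟨b, c, hc, h⟩ := hγ z
      exact ⟨b, c, hc, by rw [mul_comm]; exact h⟩),
    ← T7_trdeg_eq K B k γ' (fun z => by
      obtain ⟨b, c, hc, h⟩ := hγ' z
      exact ⟨b, c, hc, by rw [mul_comm]; exact h⟩)]

/-- a prime with `trdeg (B / P) + 1 = g = trdeg B` is not zero (`et_trdeg`; `B ⧸ ⊥ ≃ B`; cardinals: `g + 1 ≠ g`) -/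
theorem lp_ne_bot (K : Type u) [Field K] (B : Type u) [CommRing B] [IsDomain B] [Algebra K B] (g : ℕ)
    (y : MvPolynomial (Fin g) K →ₐ[K] B) (hy : y.Etale) (P : Ideal B)
    (htr : Algebra.trdeg K (B ⧸ P) + 1 = g) : P ≠ ⊥ := by
  rintro rfl
  have h1 : Algebra.trdeg K (B ⧸ (⊥ : Ideal B)) = g := by
    rw [← et_trdeg K B g y hy]
    exact (AlgEquiv.quotientBot K B).trdeg_eq
  rw [h1] at htr
  have h2 : ((g + 1 : ℕ) : Cardinal.{u}) = (g : Cardinal.{u}) := by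
    rw [Nat.cast_add, Nat.cast_one]; exact htr
  have h3 : g + 1 = g := by exact_mod_cast h2
  omega

end Fermat.Agent.S26
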