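/-
S26 / Sch / CD / Cart : Cartier data (a cocycle and a section of the inverse bundle) of a locally principal ideal
sheaf on an integral separated scheme.
-/
import Fermat.Agent.S26.Sch.LB.Pair

set_option autoImplicit false

open CategoryTheory AlgebraicGeometry Opposite TopologicalSpace

universe u

namespace Fermat.Agent.S26

variable {X : Scheme.{u}}

/-- cancellation: on an integral scheme a nonzero section is a non zero divisor on every smaller open set
(`W = ⊥`: the ring of sections is trivial; `W ≠ ⊥`: `Γ(X, W)` is a domain and the restriction map is injective,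
grep `map_injective_of_isIntegral`, `instIsDomain..` in `Mathlib/AlgebraicGeometry/Properties.lean`, `FunctionField.lean`) -/
theorem cart_cancel [IsIntegral X] {U W : X.Opens} (h : W ≤ U) {a : Γ(X, U)} (ha : a ≠ 0)
    {x y : Γ(X, W)} (hxy : x * rs h a = y * rs h a) : x = y := by
  by_cases hW : W = ⊥
  · subst hW
    exact Subsingleton.elim _ _
  · have hne : Nonempty W := by
      obtain ⟨w, hw⟩ := (Opens.ne_bot_iff_nonempty W).1 hW
      exact ⟨⟨w, hw⟩⟩
    have hinj := map_injective_of_isIntegral (X := X) (homOfLE h)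
    have h0 : rs h a ≠ 0 := by
      intro h0
      apply ha
      apply hinj
      rw [map_zero]
      exact h0
    exact mul_right_cancel₀ h0 hxy

/-- two generators of the ideal sheaf on two affine opens differ by a section on the intersection.
(`U ⊓ V` is affine, `IsAffineOpen.inf`; `Scheme.IdealSheafData.map_ideal`: both restrictions generate the ideal on `U ⊓ V`;
`Ideal.span_singleton_le_span_singleton` / `Ideal.mem_span_singleton`.) -/
theorem cart_exists_g [X.IsSeparated] (𝓘 : X.IdealSheafData) (U V : X.affineOpens) (a : Γ(X, U))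
    (b : Γ(X, V)) (ha : 𝓘.ideal U = Ideal.span {a}) (hb : 𝓘.ideal V = Ideal.span {b}) :
    ∃ t : Γ(X, U.1 ⊓ V.1), rs (inf_le_right : U.1 ⊓ V.1 ≤ V.1) b =
      t * rs (inf_le_left : U.1 ⊓ V.1 ≤ U.1) a := by
  let W : X.affineOpens := ⟨U.1 ⊓ V.1, U.2.inf V.2⟩
  have h1 := 𝓘.map_ideal (U := W) (V := U) (inf_le_left : U.1 ⊓ V.1 ≤ U.1)
  have h2 := 𝓘.map_ideal (U := W) (V := V) (inf_le_right : U.1 ⊓ V.1 ≤ V.1)
  rw [ha, Ideal.map_span, Set.image_singleton] at h1
  rw [hb, Ideal.map_span, Set.image_singleton] at h2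
  have h3 : rs (inf_le_right : U.1 ⊓ V.1 ≤ V.1) b ∈ 𝓘.ideal W := by
    rw [← h2]
    exact Ideal.mem_span_singleton_self _
  rw [← h1] at h3
  obtain ⟨t, ht⟩ := Ideal.mem_span_singleton'.1 h3
  exact ⟨t, ht.symm⟩

/-- construction of the cocycle from generators -/
theorem cart_exists_coc [IsIntegral X] [X.IsSeparated] (𝓘 : X.IdealSheafData) {n : ℕ}
    (U : Fin n → X.Opens) (hUa : ∀ i, IsAffineOpen (U i)) (a : ∀ i, Γ(X, U i))
    (ha0 : ∀ i, a i ≠ 0) (hgen : ∀ i, 𝓘.ideal ⟨U i, hUa i⟩ = Ideal.span {a i}) :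
    ∃ c : Coc U, c.symm.IsSec a := by
  have hex : ∀ i j, ∃ t : Γ(X, U i ⊓ U j), rs (inf_le_right : U i ⊓ U j ≤ U j) (a j) =
      t * rs (inf_le_left : U i ⊓ U j ≤ U i) (a i) := fun i j =>
    cart_exists_g 𝓘 ⟨U i, hUa i⟩ ⟨U j, hUa j⟩ (a i) (a j) (hgen i) (hgen j)
  choose g hg using hex
  refine ⟨{ g := g, g_self := ?_, coc := ?_ }, ?_⟩
  · intro i
    apply cart_cancel (inf_le_left : U i ⊓ U i ≤ U i) (ha0 i)
    rw [one_mul]
    exact (hg i i).symm
  · intro i j k
    apply cart_cancel ((inf_le_left.trans inf_le_left : U i ⊓ U j ⊓ U k ≤ U i)) (ha0 i)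
    have h1 := congrArg (rs (inf_le_left : U i ⊓ U j ⊓ U k ≤ U i ⊓ U j)) (hg i j)
    have h2 := congrArg (rs (le_inf (inf_le_left.trans inf_le_right) inf_le_right :
      U i ⊓ U j ⊓ U k ≤ U j ⊓ U k)) (hg j k)
    have h3 := congrArg (rs (le_inf (inf_le_left.trans inf_le_left) inf_le_right :
      U i ⊓ U j ⊓ U k ≤ U i ⊓ U k)) (hg i k)
    rw [map_mul] at h1 h2 h3
    simp only [sec_rs_rs] at h1 h2 h3
    rw [← h3, h2, h1]
    ring
  · intro i j
    have h1 := congrArg (rs (le_of_eq (inf_comm _ _) : U i ⊓ U j ≤ U j ⊓ U i)) (hg j i)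
    rw [map_mul] at h1
    simp only [sec_rs_rs] at h1
    exact h1

/-- **CART**.  PROOF.  The opens `U_x` (`x` closed) cover `X`: the complement of their union is closed without closed points
(`nonempty_inter_closedPoints`).  Compactness: finitely many, indexed by `Fin n` (`IsCompact.elim_finite_subcover`,
`Finset.equivFin`).  `a i ≠ 0` by `h0` (drop the empty `U i` or note `x ∈ U_x`).  `g i j` from `cart_exists_g`:
`a j = g i j * a i` on `U i ⊓ U j`.  `g_self`, `coc` by `cart_cancel`.  `c.symm.IsSec a` means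
`a i = c.symm.g i j * a j = (g j i restricted) * a j` on `U i ⊓ U j`. -/
theorem exists_cartier [IsIntegral X] [X.IsSeparated] [CompactSpace X] [JacobsonSpace X]
    (𝓘 : X.IdealSheafData)
    (h0 : ∀ U : X.affineOpens, (U.1 : Set X).Nonempty → 𝓘.ideal U ≠ ⊥)
    (hlp : ∀ x : X, IsClosed {x} → ∃ (U : X.affineOpens) (φ : Γ(X, U)),
      x ∈ U.1 ∧ 𝓘.ideal U = Ideal.span {φ}) :
    ∃ (n : ℕ) (U : Fin n → X.Opens) (hUa : ∀ i, IsAffineOpen (U i)) (_ : ∀ x : X, ∃ i, x ∈ U i)
      (c : Coc U) (a : ∀ i, Γ(X, U i)), c.symm.IsSec a ∧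
        ∀ i, 𝓘.ideal ⟨U i, hUa i⟩ = Ideal.span {a i} := by
  classical
  have hlp' : ∀ x : {x : X // IsClosed {x}}, ∃ (U : X.affineOpens) (φ : Γ(X, U)),
      x.1 ∈ U.1 ∧ 𝓘.ideal U = Ideal.span {φ} := fun x => hlp x.1 x.2
  choose UU φ hx hgen using hlp'
  have hcov : (Set.univ : Set X) ⊆ ⋃ x, ((UU x).1 : Set X) := by
    by_contra hcon
    have hne : ((⋃ x, ((UU x).1 : Set X))ᶜ).Nonempty := by
      rw [Set.nonempty_compl]
      intro h
      exact hcon (by rw [h])
    have hcl : IsClosed ((⋃ x, ((UU x).1 : Set X))ᶜ) :=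
      (isOpen_iUnion fun x => (UU x).1.isOpen).isClosed_compl
    obtain ⟨y, hy1, hy2⟩ := nonempty_inter_closedPoints hne hcl.isLocallyClosed
    exact hy1 (Set.mem_iUnion.2 ⟨⟨y, hy2⟩, hx ⟨y, hy2⟩⟩)
  obtain ⟨t, ht⟩ := isCompact_univ.elim_finite_subcover (fun x => ((UU x).1 : Set X))
    (fun x => (UU x).1.isOpen) hcov
  let e := t.equivFin
  let U : Fin t.card → X.Opens := fun i => (UU (e.symm i).1).1
  have hUa : ∀ i, IsAffineOpen (U i) := fun i => (UU (e.symm i).1).2
  let a : ∀ i, Γ(X, U i) := fun i => φ (e.symm i).1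
  have hgen' : ∀ i, 𝓘.ideal ⟨U i, hUa i⟩ = Ideal.span {a i} := fun i => hgen (e.symm i).1
  have ha0 : ∀ i, a i ≠ 0 := by
    intro i hi
    apply h0 ⟨U i, hUa i⟩ ⟨_, hx (e.symm i).1⟩
    rw [hgen' i, hi]
    exact Ideal.span_singleton_eq_bot.2 rfl
  obtain ⟨c, hc⟩ := cart_exists_coc 𝓘 U hUa a ha0 hgen'
  refine ⟨t.card, U, hUa, ?_, c, a, hc, hgen'⟩
  intro x
  obtain ⟨p, hp, hxp⟩ := Set.mem_iUnion₂.1 (ht (Set.mem_univ x))
  refine ⟨e ⟨p, hp⟩, ?_⟩
  show x ∈ (UU (e.symm (e ⟨p, hp⟩)).1).1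
  rw [Equiv.symm_apply_apply]
  exact hxp

/-- the vanishing ideal of a proper closed subset of an integral scheme is nonzero on every nonempty affine open.
PROOF.  If it is `⊥` on `U` then `closure (fromSpec ⁻¹' Z) = zeroLocus ⊥ = univ`
(`PrimeSpectrum.zeroLocus_vanishingIdeal_eq_closure`), `fromSpec ⁻¹' Z` is closed, so `U ⊆ Z`, and `U` is dense
(nonempty open in an irreducible space), `Z` closed: `Z = univ`. -/
theorem vanishingIdeal_ideal_ne_bot [IsIntegral X] (Z : Closeds X) (hZ : (Z : Set X) ≠ Set.univ)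
    (U : X.affineOpens) (hU : (U.1 : Set X).Nonempty) :
    (Scheme.IdealSheafData.vanishingIdeal Z).ideal U ≠ ⊥ := by
  intro hbot
  apply hZ
  rw [Scheme.IdealSheafData.vanishingIdeal_ideal] at hbot
  have h1 : closure (U.2.fromSpec ⁻¹' (Z : Set X)) = Set.univ := by
    have h0 := PrimeSpectrum.zeroLocus_vanishingIdeal_eq_closure (U.2.fromSpec ⁻¹' (Z : Set X))
    refine h0.symm.trans ?_
    have h00 : PrimeSpectrum.vanishingIdeal (U.2.fromSpec ⁻¹' (Z : Set X)) = ⊥ := hbot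
    rw [h00]
    exact PrimeSpectrum.zeroLocus_bot
  have h2 : IsClosed (U.2.fromSpec ⁻¹' (Z : Set X)) := Z.isClosed.preimage U.2.fromSpec.continuous
  rw [h2.closure_eq] at h1
  have h3 : (U.1 : Set X) ⊆ Z := by
    intro x hx
    rw [← U.2.range_fromSpec] at hx
    obtain ⟨y, rfl⟩ := hx
    have : y ∈ U.2.fromSpec ⁻¹' (Z : Set X) := by rw [h1]; trivial
    exact this
  have h4 : Dense (U.1 : Set X) := U.1.isOpen.dense hU
  have h5 := h4.closure_eq
  rw [← Set.univ_subset_iff, ← h5]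
  exact Z.isClosed.closure_subset_iff.2 h3

end Fermat.Agent.S26
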