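/-
S26 / Sch / CD / Ident : the range of the canonical map `can u : M(u) → S` is the ideal locally generated by the
pull backs of the local equations `a i`.
-/
import Fermat.Agent.S26.Sch.LB.Bun

set_option autoImplicit false

open CategoryTheory CategoryTheory.Limits AlgebraicGeometry NeronModelInfra GoodReductionJacobian

universe u

namespace Fermat.Agent.S26

/-- membership in an ideal is local -/
theorem mem_of_forall_prime {S : Type*} [CommRing S] {I : Ideal S} {r : S}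
    (h : ∀ x : PrimeSpectrum S, ∃ s, s ∉ x.asIdeal ∧ s * r ∈ I) : r ∈ I := by
  let J : Ideal S :=
    { carrier := {t | t * r ∈ I}
      add_mem' := fun {a b} ha hb => by
        show (a + b) * r ∈ I
        rw [add_mul]
        exact I.add_mem ha hb
      zero_mem' := by
        show 0 * r ∈ I
        rw [zero_mul]
        exact I.zero_mem
      smul_mem' := fun c t ht => by
        show (c • t) * r ∈ I
        rw [smul_eq_mul, mul_assoc]
        exact I.mul_mem_left c ht }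
  by_contra hr
  have hJ : J ≠ ⊤ := by
    intro hJ
    have h1 : (1 : S) ∈ J := hJ ▸ Submodule.mem_top
    have h2 : 1 * r ∈ I := h1
    rw [one_mul] at h2
    exact hr h2
  obtain ⟨M, hM, hJM⟩ := Ideal.exists_le_maximal J hJ
  obtain ⟨s, hs, hsr⟩ := h ⟨M, hM.isPrime⟩
  exact hs (hJM hsr)

/-- every point of `Spec S` has a basic open neighbourhood mapped into one of the `U i` -/
theorem ident_exists_Ds {X : Scheme.{u}} {n : ℕ} {U : Fin n → X.Opens} (hU : ∀ x : X, ∃ i, x ∈ U i)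
    {S : Type u} [CommRing S] (v : Sp S ⟶ X) (x : PrimeSpectrum S) :
    ∃ (i : Fin n) (s : S), s ∉ x.asIdeal ∧ Ds s ≤ v ⁻¹ᵁ U i := by
  obtain ⟨i, hi⟩ := hU (v.base x)
  have hx : (x : Sp S) ∈ ((v ⁻¹ᵁ U i : (Sp S).Opens) : Set (Sp S)) := hi
  obtain ⟨_, ⟨s, rfl⟩, hxs, hsU⟩ :=
    PrimeSpectrum.isTopologicalBasis_basic_opens.exists_subset_of_mem_open hx (v ⁻¹ᵁ U i).isOpen
  exact ⟨i, s, hxs, hsU⟩

variable {K : Type u} [Field K] {A : Scheme.{u}} (f : A ⟶ Spec (CommRingCat.of K))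
  (L : RelativeGroupLaw K f) (hc : L.IsCommutative)

namespace Coc

variable {n : ℕ} {U : Fin n → A.Opens} (c : Coc U) (hU : ∀ x : A, ∃ i, x ∈ U i)
  (hUa : ∀ i, IsAffineOpen (U i)) [IsSeparated f] {a : ∀ i, Γ(A, U i)} (ha : c.symm.IsSec a)

/-- **IDENT-A**.  PROOF.  For every prime `x` of `S` there are `i` and `s ∉ x` with `D(s) ≤ u⁻¹ U i`
(`hU`, `PrimeSpectrum.isBasis_basic_opens`).  Use `mem_of_forall_prime` in both directions.
(⊆) `r = can m`: by `toSec_can`, `rs_toSec`: `toSec (D s) r = u^*(a i) * (m i restricted)`, so `s * r ∈ I'` by `hloc`.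
(⊇) `r ∈ I'`: `s * r ∈ I'`, so `toSec (D s) r = u^*(a i) * y`.  `exists_toSec_eq_pow_smul`: `toSec (D s) b = s ^ N • y`.
`exists_ext` (compactness as in `span_mu_eq_top'`): `m` with `m i = s ^ N'` on `D(s)`.  Then
`toSec (D s) (can (b • m)) = toSec (D s) (s ^ (N + N') * r)`, so `s ^ e * can (b • m) = s ^ e * (s ^ (N + N') * r)`
(`exists_pow_mul_eq_of_toSec_eq`): `s ^ (e + N + N') * r ∈ range can`, and `s ^ _ ∉ x`. -/
theorem range_can_eq {S : Type u} [CommRing S] [Algebra K S] (u : (avf f L hc).pt S) (I' : Ideal S)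
    (hloc : ∀ (i : Fin n) (s : S) (hs : Ds s ≤ hom u ⁻¹ᵁ U i) (r : S),
      s * r ∈ I' ↔ pb (hom u) (U i) (Ds s) hs (a i) ∣ toSec S (Ds s) r) :
    LinearMap.range (c.can f L hc hU hUa ha u) = I' := by
  -- the canonical map on `D(s)`
  have hcan : ∀ (i : Fin n) (s : S) (hs : Ds s ≤ hom u ⁻¹ᵁ U i) (m : (c.lbun f L hc hU hUa).M u),
      toSec S (Ds s) (c.can f L hc hU hUa ha u m) =
        pb (hom u) (U i) (Ds s) hs (a i) * rs hs ((m : c.M (hom u)).1 i) := by
    intro i s hs m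
    have h1 := congrArg (rs hs) (c.toSec_can f L hc hU hUa ha u m i)
    rwa [rs_toSec, map_mul, defs_rs_pb] at h1
  apply le_antisymm
  · rintro _ ⟨m, rfl⟩
    refine mem_of_forall_prime fun x => ?_
    obtain ⟨i, s, hsx, hs⟩ := ident_exists_Ds hU (hom u) x
    exact ⟨s, hsx, (hloc i s hs _).2 ⟨_, hcan i s hs m⟩⟩
  · intro r hr
    refine mem_of_forall_prime (I := LinearMap.range (c.can f L hc hU hUa ha u)) fun x => ?_
    obtain ⟨i, s, hsx, hs⟩ := ident_exists_Ds hU (hom u) x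
    obtain ⟨y, hy⟩ := (hloc i s hs r).1 (I'.mul_mem_left s hr)
    obtain ⟨N, b, hb⟩ := exists_toSec_eq_pow_smul s y
    obtain ⟨N', m, hm⟩ : ∃ (N' : ℕ) (m : (c.lbun f L hc hU hUa).M u),
        rs hs ((m : c.M (hom u)).1 i) = toSec S (Ds s) (s ^ N') := c.exists_ext (hom u)
      (fun i => isCompact_preimage_of_isSeparated f (hom u) (hUa i))
      (fun i j => isCompact_preimage_inf_of_isSeparated f (hom u) (hUa i) (hUa j)) i s hs
    have h1 : toSec S (Ds s) (c.can f L hc hU hUa ha u m) =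
        pb (hom u) (U i) (Ds s) hs (a i) * toSec S (Ds s) (s ^ N') := by
      rw [hcan i s hs, hm]
    have h2 : toSec S (Ds s) (b * c.can f L hc hU hUa ha u m) =
        toSec S (Ds s) (s ^ (N + N') * r) := by
      rw [map_mul, h1, hb, smul_sec_def, map_mul, hy, pow_add, map_mul]
      ring
    obtain ⟨e, he⟩ := exists_pow_mul_eq_of_toSec_eq s _ _ h2
    refine ⟨s ^ (e + (N + N')), fun hmem => hsx (x.isPrime.mem_of_pow_mem _ hmem), ?_⟩
    refine ⟨(s ^ e * b) • m, ?_⟩
    rw [map_smul, smul_eq_mul, mul_assoc, he]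
    ring

end Coc

end Fermat.Agent.S26
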