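/-
S26 / Sch / CD / Van : the vanishing ideal sheaf of a closed subset, read in a chart `j : Spec R → X`.
-/
import Fermat.Agent.S26.Sch.LB.Loc

set_option autoImplicit false

open CategoryTheory AlgebraicGeometry Opposite TopologicalSpace

universe u

namespace Fermat.Agent.S26

variable {X : Scheme.{u}}

/-- **VI**.  A section over an affine open lies in the vanishing ideal of `Z` iff its non-vanishing locus misses `Z`.
(`Scheme.IdealSheafData.vanishingIdeal_ideal`, `PrimeSpectrum.mem_vanishingIdeal`,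
`IsAffineOpen.fromSpec_preimage_basicOpen`, `IsAffineOpen.range_fromSpec`, `X.basicOpen r ≤ W`.) -/
theorem mem_vanishingIdeal_ideal_iff (Z : Closeds X) (W : X.affineOpens) (r : Γ(X, W)) :
    r ∈ (Scheme.IdealSheafData.vanishingIdeal Z).ideal W ↔
      Disjoint ((X.basicOpen r : X.Opens) : Set X) (Z : Set X) := by
  rw [Scheme.IdealSheafData.vanishingIdeal_ideal, PrimeSpectrum.mem_vanishingIdeal,
    Set.disjoint_left]
  have hpre := W.2.fromSpec_preimage_basicOpen r
  have hmem : ∀ p : PrimeSpectrum Γ(X, W), W.2.fromSpec p ∈ X.basicOpen r ↔ r ∉ p.asIdeal := by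
    intro p
    have h1 : p ∈ W.2.fromSpec ⁻¹ᵁ X.basicOpen r ↔ p ∈ PrimeSpectrum.basicOpen r := by
      rw [hpre]; rfl
    exact h1
  constructor
  · intro H x hx hxZ
    have hxW : x ∈ (W : Set X) := X.basicOpen_le r hx
    rw [← W.2.range_fromSpec] at hxW
    obtain ⟨p, rfl⟩ := hxW
    exact (hmem p).mp hx (H p hxZ)
  · intro H p hp
    by_contra hr
    exact H ((hmem p).mpr hr) hp

variable {R : Type u} [CommRing R] (j : Sp R ⟶ X)

theorem le_preimage_image [IsOpenImmersion j] (W : (Sp R).Opens) : W ≤ j ⁻¹ᵁ (j ''ᵁ W) := by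
  exact (j.preimage_image_eq W).ge

/-- pull back along an open immersion is bijective on sections (`Scheme.Hom.appIso`) -/
theorem pb_bijective [IsOpenImmersion j] (W : (Sp R).Opens) :
    Function.Bijective (pb j (j ''ᵁ W) W (le_preimage_image j W)) := by
  have h : pb j (j ''ᵁ W) W (le_preimage_image j W) = (j.appIso W).hom.hom := by
    rw [Scheme.Hom.appIso_hom']
  rw [h]
  exact ConcreteCategory.bijective_of_isIso (j.appIso W).hom

theorem isAffineOpen_image_Ds [IsOpenImmersion j] (s : R) : IsAffineOpen (j ''ᵁ Ds s) := by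
  exact (IsAffineOpen.Spec_basicOpen (R := CommRingCat.of R) s).image_of_isOpenImmersion j

/-- the ideal of `j⁻¹ Z` in the chart -/
noncomputable def chI (Z : Set X) : Ideal R := PrimeSpectrum.vanishingIdeal (j.base ⁻¹' Z)

theorem mem_chI (Z : Set X) (r : R) :
    r ∈ chI j Z ↔ ∀ p : PrimeSpectrum R, j.base p ∈ Z → r ∈ p.asIdeal := by
  exact PrimeSpectrum.mem_vanishingIdeal _ _

/-- the range of `j` is open, so it misses `closure {ξ}` if it misses `ξ` -/
theorem chI_eq_top [IsOpenImmersion j] (ξ : X) (h : ξ ∉ Set.range j.base) :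
    chI j (closure {ξ}) = ⊤ := by
  have h1 : closure {ξ} ⊆ (Set.range j.base)ᶜ :=
    closure_minimal (Set.singleton_subset_iff.2 h) j.isOpenEmbedding.isOpen_range.isClosed_compl
  have h2 : (j.base ⁻¹' closure {ξ} : Set (PrimeSpectrum R)) = ∅ := by
    rw [Set.eq_empty_iff_forall_notMem]
    intro p hp
    exact h1 hp ⟨p, rfl⟩
  exact (congrArg PrimeSpectrum.vanishingIdeal h2).trans PrimeSpectrum.vanishingIdeal_empty

/-- `j⁻¹ (closure {j q}) = closure {q}` (`j` is an embedding), `PrimeSpectrum.vanishingIdeal_closure`,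
`PrimeSpectrum.vanishingIdeal_singleton` -/
theorem chI_eq [IsOpenImmersion j] (q : PrimeSpectrum R) :
    chI j (closure {j.base q}) = q.asIdeal := by
  have h0 := j.isOpenEmbedding.isInducing.closure_eq_preimage_closure_image
    ({(show (Sp R) from q)} : Set (Sp R))
  rw [Set.image_singleton] at h0
  have h1 : (j.base ⁻¹' closure {j.base q} : Set (PrimeSpectrum R)) = closure {q} := h0.symm
  refine (congrArg PrimeSpectrum.vanishingIdeal h1).trans ?_
  rw [PrimeSpectrum.vanishingIdeal_closure, PrimeSpectrum.vanishingIdeal_singleton]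

/-- **key**: the ideal sheaf on `j (D(s))` in terms of `chI`.
PROOF.  By **VI**: `r'` lies in the ideal iff `X.basicOpen r'` misses `Z`.  `X.basicOpen r' ≤ j ''ᵁ D(s)`, so this means
that `j ⁻¹ᵁ X.basicOpen r'` misses `j⁻¹ Z`.  `j ⁻¹ᵁ X.basicOpen r' ⊓ D(s) = (Sp R).basicOpen (pb j .. r') =
(Sp R).basicOpen (toSec R (D s) r) = D(s) ⊓ D(r) = D(s * r)` (`Scheme.preimage_basicOpen`, `Scheme.basicOpen_res`,
`basicOpen_toSec`).  And `D(s * r)` misses `j⁻¹ Z` iff `s * r ∈ chI j Z`. -/
theorem mem_ideal_image_iff [IsOpenImmersion j] (Z : Closeds X) (s r : R) (r' : Γ(X, j ''ᵁ Ds s))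
    (hr : pb j (j ''ᵁ Ds s) (Ds s) (le_preimage_image j _) r' = toSec R (Ds s) r) :
    r' ∈ (Scheme.IdealSheafData.vanishingIdeal Z).ideal ⟨j ''ᵁ Ds s, isAffineOpen_image_Ds j s⟩ ↔
      s * r ∈ chI j (Z : Set X) := by
  rw [mem_vanishingIdeal_ideal_iff, mem_chI, Set.disjoint_left]
  have hb : (Sp R).basicOpen (pb j (j ''ᵁ Ds s) (Ds s) (le_preimage_image j _) r') =
      Ds s ⊓ j ⁻¹ᵁ (X.basicOpen r') := Scheme.basicOpen_appLE j _ _ _ r'
  rw [hr, basicOpen_toSec] at hb
  have hmem : ∀ p : PrimeSpectrum R, j.base p ∈ X.basicOpen r' ↔ s * r ∉ p.asIdeal := by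
    intro p
    have h1 : p ∈ Ds s ⊓ Ds r ↔ p ∈ Ds s ⊓ j ⁻¹ᵁ (X.basicOpen r') := by rw [hb]
    have h2 : s * r ∉ p.asIdeal ↔ p ∈ Ds s ⊓ Ds r := by
      rw [p.2.mul_mem_iff_mem_or_mem, not_or]; rfl
    rw [h2, h1]
    constructor
    · intro hp
      refine ⟨?_, hp⟩
      obtain ⟨p', hp', e⟩ := X.basicOpen_le r' hp
      rwa [← j.isOpenEmbedding.injective e]
    · exact fun hp => hp.2
  constructor
  · intro H p hp
    by_contra hn
    exact H ((hmem p).mpr hn) hp
  · intro H x hx hxZ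
    obtain ⟨p, -, rfl⟩ := X.basicOpen_le r' hx
    exact (hmem p).mp hx (H p hxZ)

end Fermat.Agent.S26
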