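/-
S26 / Sch / CD / Prin : principal generators of the vanishing ideal sheaf, read in a chart.
-/
import Fermat.Agent.S26.Sch.CD.Van

set_option autoImplicit false

open CategoryTheory AlgebraicGeometry Opposite TopologicalSpace

universe u

namespace Fermat.Agent.S26

variable {X : Scheme.{u}} {R : Type u} [CommRing R] (j : Sp R ⟶ X)

/-- **LOCPRIN**.  If `s • chI ⊆ (h)`, `h ∈ chI`, then the ideal sheaf is principal on `j (D(s))`.
PROOF.  `θ := pb j (j ''ᵁ D s) (D s) _` is a bijective ring hom (`pb_bijective`); `φ := θ⁻¹ (toSec R (D s) h)`.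
`φ` lies in the ideal by `mem_ideal_image_iff` (`s * h ∈ chI`).  Conversely let `r'` be in the ideal.
`exists_toSec_eq_pow_smul`: `toSec (D s) r = s ^ N • θ r' = θ (r'')`, `r'' := θ⁻¹ (toSec (s ^ N)) * r'` also in the ideal, so
`s * r ∈ chI`, `s * (s * r) = b * h`, i.e. `toSec (s ^ (N + 2)) * θ r' = toSec b * θ φ`, and `toSec (D s) s` is a unit
(`isUnit_toSec_of_le`): `θ φ ∣ θ r'`, so `φ ∣ r'`. -/
theorem ideal_image_eq_span [IsOpenImmersion j] (Z : Closeds X) (s h : R)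
    (hh : h ∈ chI j (Z : Set X)) (hs : ∀ p ∈ chI j (Z : Set X), ∃ b, s * p = b * h) :
    ∃ φ : Γ(X, j ''ᵁ Ds s),
      (Scheme.IdealSheafData.vanishingIdeal Z).ideal ⟨j ''ᵁ Ds s, isAffineOpen_image_Ds j s⟩ =
        Ideal.span {φ} := by
  have hθ := pb_bijective j (Ds s)
  set θ := pb j (j ''ᵁ Ds s) (Ds s) (le_preimage_image j _) with hθdef
  obtain ⟨φ, hφ⟩ := hθ.2 (toSec R (Ds s) h)
  refine ⟨φ, le_antisymm ?_ ?_⟩
  · intro r' hr'
    obtain ⟨N, r, hr⟩ := exists_toSec_eq_pow_smul s (θ r')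
    rw [smul_sec_def] at hr
    obtain ⟨t, ht⟩ := hθ.2 (toSec R (Ds s) (s ^ N))
    have hr'' : t * r' ∈ (Scheme.IdealSheafData.vanishingIdeal Z).ideal
        ⟨j ''ᵁ Ds s, isAffineOpen_image_Ds j s⟩ := Ideal.mul_mem_left _ t hr'
    have hθr'' : θ (t * r') = toSec R (Ds s) r := by rw [map_mul, ht, hr]
    have hsr : s * r ∈ chI j (Z : Set X) := (mem_ideal_image_iff j Z s r (t * r') hθr'').1 hr''
    obtain ⟨b, hb⟩ := hs _ hsr
    obtain ⟨u, hu⟩ := isUnit_toSec_of_le s (le_refl (Ds s))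
    have h1 : toSec R (Ds s) s * (toSec R (Ds s) s * (toSec R (Ds s) (s ^ N) * θ r')) =
        toSec R (Ds s) b * θ φ := by
      rw [← hr, hφ, ← map_mul, ← map_mul, ← map_mul, hb]
    obtain ⟨c, hc⟩ := hθ.2 (((u⁻¹ : (Γ(Sp R, Ds s))ˣ) : Γ(Sp R, Ds s)) ^ (N + 2) * toSec R (Ds s) b)
    have h2 : θ r' = θ (c * φ) := by
      rw [map_mul, hc, mul_assoc, ← h1, map_pow, ← hu]
      have h3 : ((u⁻¹ : (Γ(Sp R, Ds s))ˣ) : Γ(Sp R, Ds s)) ^ (N + 2) *
          ((u : Γ(Sp R, Ds s)) * ((u : Γ(Sp R, Ds s)) * ((u : Γ(Sp R, Ds s)) ^ N * θ r'))) =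
          (((u⁻¹ : (Γ(Sp R, Ds s))ˣ) : Γ(Sp R, Ds s)) * (u : Γ(Sp R, Ds s))) ^ (N + 2) * θ r' := by
        ring
      rw [h3, Units.inv_mul, one_pow, one_mul]
    rw [hθ.1 h2]
    exact Ideal.mul_mem_left _ c (Ideal.mem_span_singleton_self φ)
  · rw [Ideal.span_singleton_le_iff_mem]
    exact (mem_ideal_image_iff j Z s h φ hφ).2 (Ideal.mul_mem_left _ s hh)

/-- **IDENT-B**.  PROOF.  `W' := j ''ᵁ D s ≤ U` (from `hs`).  `Scheme.IdealSheafData.map_ideal` (for `W' ≤ U`): the ideal on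
`W'` is `span {rs _ a}`.  `θ` as above, `r' := θ⁻¹ (toSec R (D s) r)`.  `mem_ideal_image_iff`: `s * r ∈ chI ↔ r' ∈ span {rs a}
↔ rs a ∣ r' ↔ θ (rs a) ∣ θ r'`, and `θ (rs a) = pb j U (D s) hs a` (`Scheme.Hom.map_appLE`). -/
theorem loc_chI [IsOpenImmersion j] (Z : Closeds X) (U : X.affineOpens) (a : Γ(X, U))
    (ha : (Scheme.IdealSheafData.vanishingIdeal Z).ideal U = Ideal.span {a}) (s : R)
    (hs : Ds s ≤ j ⁻¹ᵁ U.1) (r : R) :
    s * r ∈ chI j (Z : Set X) ↔ pb j U.1 (Ds s) hs a ∣ toSec R (Ds s) r := by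
  have hθ := pb_bijective j (Ds s)
  have hW : j ''ᵁ Ds s ≤ U.1 := (j.image_mono hs).trans (j.image_preimage_le U.1)
  have hWU : (⟨j ''ᵁ Ds s, isAffineOpen_image_Ds j s⟩ : X.affineOpens) ≤ U := hW
  have hI : (Scheme.IdealSheafData.vanishingIdeal Z).ideal ⟨j ''ᵁ Ds s, isAffineOpen_image_Ds j s⟩
      = Ideal.span {rs hW a} := by
    rw [← (Scheme.IdealSheafData.vanishingIdeal Z).map_ideal hWU, ha, Ideal.map_span,
      Set.image_singleton]
    rfl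
  have hθa : pb j (j ''ᵁ Ds s) (Ds s) (le_preimage_image j _) (rs hW a) = pb j U.1 (Ds s) hs a := by
    have key := Scheme.Hom.map_appLE j (le_preimage_image j (Ds s)) (homOfLE hW).op
    exact congrArg (fun f => f.hom a) key
  obtain ⟨r', hr'⟩ := hθ.2 (toSec R (Ds s) r)
  rw [← mem_ideal_image_iff j Z s r r' hr', hI, Ideal.mem_span_singleton, ← hθa, ← hr']
  exact (map_dvd_iff (RingEquiv.ofBijective _ hθ)).symm

end Fermat.Agent.S26
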