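/-
S26 / Sch / CD / Pts : points of charts, translated charts, comparison of two charts at a common point.
-/
import Fermat.Agent.S26.Sch.GeoOf
import Fermat.Agent.S26.Sch.CD.Van

set_option autoImplicit false

open CategoryTheory CategoryTheory.Limits AlgebraicGeometry NeronModelInfra GoodReductionJacobian

universe u

namespace Fermat.Agent.S26

variable {K : Type u} [Field K]

/-- constant points are compatible with base change (`map_comp`, `AlgHom.comp_ofId`-type: both are algebra homs from `K`) -/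
theorem AVF.map_cst (𝔸 : AVF K) {S S' : Type u} [CommRing S] [Algebra K S] [CommRing S'] [Algebra K S']
    (φ : S →ₐ[K] S') (a : 𝔸.pt K) : 𝔸.map φ (𝔸.cst S a) = 𝔸.cst S' a := by
  have h : φ.comp (Algebra.ofId K S) = Algebra.ofId K S' :=
    AlgHom.ext fun c => φ.commutes c
  rw [AVF.cst, AVF.cst, ← 𝔸.map_comp, h]

theorem AVF.cst_zero (𝔸 : AVF K) (S : Type u) [CommRing S] [Algebra K S] : 𝔸.cst S 0 = 0 := by
  have h : 𝔸.cst S (0 + 0) = 𝔸.cst S 0 + 𝔸.cst S 0 := 𝔸.map_add _ 0 0
  rw [add_zero] at h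
  exact left_eq_add.1 h

variable {A : Scheme.{u}} {f : A ⟶ Spec (CommRingCat.of K)} {L : RelativeGroupLaw K f}
  {hc : L.IsCommutative}

section two

variable {R R' : Type u} [CommRing R] [Algebra K R] [CommRing R'] [Algebra K R']
  (j : (avf f L hc).pt R) (j' : (avf f L hc).pt R')

/-- `R → R / q → Frac (R / q)` -/
noncomputable def toFrac (q : Ideal R) : R →ₐ[K] FractionRing (R ⧸ q) :=
  (IsScalarTower.toAlgHom K (R ⧸ q) (FractionRing (R ⧸ q))).comp (Ideal.Quotient.mkₐ K q)

theorem ker_toFrac (q : Ideal R) [q.IsPrime] : RingHom.ker (toFrac (K := K) q) = q := by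
  ext x
  rw [RingHom.mem_ker]
  show algebraMap (R ⧸ q) (FractionRing (R ⧸ q)) (Ideal.Quotient.mk q x) = 0 ↔ _
  rw [map_eq_zero_iff _ (IsFractionRing.injective (R ⧸ q) (FractionRing (R ⧸ q))),
    Ideal.Quotient.eq_zero_iff_mem]

/-- the image of the point `Spec Frac (R/q) → Spec R → A` is `j q` (`specA_closedPoint`, `ker_toFrac`) -/
theorem hom_map_toFrac (q : Ideal R) [hq : q.IsPrime] (x : Spec (CommRingCat.of (FractionRing (R ⧸ q)))) :
    (hom ((avf f L hc).map (toFrac q) j)).base x = (hom j).base (⟨q, hq⟩ : PrimeSpectrum R) := by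
  rw [hom_map]
  have h1 : (specA (toFrac (K := K) q)).base x = (⟨q, hq⟩ : PrimeSpectrum R) := by
    apply PrimeSpectrum.ext
    rw [specA_closedPoint, ker_toFrac]
  have h2 : (specA (toFrac (K := K) q) ≫ hom j).base x =
      (hom j).base ((specA (toFrac (K := K) q)).base x) := by
    simp
  rw [h2, h1]

theorem pts_toFrac_frac (q : Ideal R) [q.IsPrime] (z : FractionRing (R ⧸ q)) :
    ∃ b c : R, toFrac (K := K) q c ≠ 0 ∧ z * toFrac (K := K) q c = toFrac (K := K) q b := by
  obtain ⟨a, c, hc, rfl⟩ := IsFractionRing.div_surjective (A := R ⧸ q) z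
  obtain ⟨b', rfl⟩ := Ideal.Quotient.mk_surjective a
  obtain ⟨c', rfl⟩ := Ideal.Quotient.mk_surjective c
  have hc0 : algebraMap (R ⧸ q) (FractionRing (R ⧸ q)) (Ideal.Quotient.mk q c') ≠ 0 :=
    IsFractionRing.to_map_ne_zero_of_mem_nonZeroDivisors hc
  exact ⟨b', c', hc0, div_mul_cancel₀ _ hc0⟩

/-- extension to the fraction field of a homomorphism to a field with kernel `q` -/
theorem pts_exists_ext (q : Ideal R) [q.IsPrime] {k : Type u} [Field k] [Algebra K k]
    (γ : R →ₐ[K] k) (hγ : RingHom.ker γ = q) :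
    ∃ δ : FractionRing (R ⧸ q) →ₐ[K] k, δ.comp (toFrac q) = γ := by
  have hinj : Function.Injective (Ideal.Quotient.liftₐ q γ (fun a ha => by
      rw [← hγ] at ha; exact ha)) := by
    rw [injective_iff_map_eq_zero]
    intro a ha
    obtain ⟨a, rfl⟩ := Ideal.Quotient.mk_surjective a
    rw [Ideal.Quotient.eq_zero_iff_mem, ← hγ]
    exact ha
  refine ⟨IsFractionRing.liftAlgHom (K := FractionRing (R ⧸ q)) hinj, ?_⟩
  refine AlgHom.ext fun x => ?_
  simp only [toFrac, AlgHom.comp_apply, IsScalarTower.coe_toAlgHom', Ideal.Quotient.mkₐ_eq_mk,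
    IsFractionRing.liftAlgHom_apply, IsFractionRing.lift_algebraMap]
  rfl

/-- **FRAC**.  Two charts `j`, `j'` and points `q`, `q'` with the same image in `A`.
PROOF.  `k := Frac (R/q)`, `k' := Frac (R'/q')`.  The point `map (toFrac q) j ∈ A(k)` has image `j q = j' q' ∈ range j'`:
`chart_lift` gives `γ : R' → k` with `map γ j' = map (toFrac q) j`; `ker γ = q'` by `chart_ker`.  Symmetrically
`γ' : R → k'`, `map γ' j = map (toFrac q') j'`, `ker γ' = q`.  `γ` kills `q'` and is injective modulo `q'`, so it extends to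
`δ : k' →ₐ[K] k` with `δ ∘ toFrac q' = γ` (`Ideal.Quotient.liftₐ`, `IsFractionRing.liftAlgHom` / `IsLocalization.lift`).
Likewise `δ' : k →ₐ[K] k'`, `δ' ∘ toFrac q = γ'`.  `map (δ ∘ γ') j = map δ (map (toFrac q') j') = map γ j' = map (toFrac q) j`, so
`δ ∘ γ' = toFrac q` by `chart_mono`, i.e. `δ ∘ δ' ∘ toFrac q = toFrac q`, hence `δ ∘ δ' = id` (two homs out of a fraction field
which agree on the ring).  So `δ` is surjective: `z = δ z'`, `z' * toFrac q' c = toFrac q' b` with `toFrac q' c ≠ 0`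
(`IsFractionRing.div_surjective` / `IsLocalization.surj`, `Ideal.Quotient.mk_surjective`), apply `δ` (injective). -/
theorem chart_frac [IsOpenImmersion (hom j)] [IsOpenImmersion (hom j')] (q : Ideal R)
    [hq : q.IsPrime] (q' : PrimeSpectrum R')
    (h : (hom j).base (⟨q, hq⟩ : PrimeSpectrum R) = (hom j').base q') :
    ∃ γ : R' →ₐ[K] FractionRing (R ⧸ q), RingHom.ker γ = q'.asIdeal ∧
      (∀ z : FractionRing (R ⧸ q), ∃ b c : R', γ c ≠ 0 ∧ z * γ c = γ b) ∧
      (avf f L hc).map γ j' = (avf f L hc).map (toFrac q) j := by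
  have hq' : q'.asIdeal.IsPrime := q'.isPrime
  -- the lift `γ`
  obtain ⟨γ, hγ⟩ := chart_lift j' ((avf f L hc).map (toFrac q) j) (by
    rintro _ ⟨x, rfl⟩
    rw [hom_map_toFrac, h]
    exact ⟨q', rfl⟩)
  have hkerγ : RingHom.ker γ = q'.asIdeal :=
    chart_ker j' γ (IsLocalRing.closedPoint (FractionRing (R ⧸ q))) q' (by
      rw [hγ]
      exact (hom_map_toFrac j q _).trans h)
  -- the lift `γ'`
  obtain ⟨γ', hγ'⟩ := chart_lift j ((avf f L hc).map (toFrac q'.asIdeal) j') (by
    rintro _ ⟨x, rfl⟩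
    rw [hom_map_toFrac]
    exact ⟨⟨q, hq⟩, h⟩)
  have hkerγ' : RingHom.ker γ' = q :=
    chart_ker j γ' (IsLocalRing.closedPoint (FractionRing (R' ⧸ q'.asIdeal))) ⟨q, hq⟩ (by
      rw [hγ']
      exact (hom_map_toFrac j' q'.asIdeal _).trans h.symm)
  obtain ⟨δ, hδ⟩ := pts_exists_ext q'.asIdeal γ hkerγ
  obtain ⟨δ', hδ'⟩ := pts_exists_ext q γ' hkerγ'
  have h1 : δ.comp γ' = toFrac q := by
    apply chart_mono j
    rw [(avf f L hc).map_comp, hγ', ← (avf f L hc).map_comp, hδ, hγ]
  have h2 : ∀ x : R, δ (δ' (toFrac (K := K) q x)) = toFrac (K := K) q x := by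
    intro x
    have e1 : δ' (toFrac (K := K) q x) = γ' x := congrArg (fun g : R →ₐ[K] _ => g x) hδ'
    rw [e1]
    exact congrArg (fun g : R →ₐ[K] _ => g x) h1
  have h3 : ∀ z : FractionRing (R ⧸ q), δ (δ' z) = z := by
    intro z
    obtain ⟨b, c, hc0, hbc⟩ := pts_toFrac_frac (K := K) q z
    have e2 := congrArg (fun t => δ (δ' t)) hbc
    simp only [map_mul, h2] at e2
    rw [← hbc] at e2
    exact mul_right_cancel₀ hc0 e2
  refine ⟨γ, hkerγ, fun z => ?_, hγ⟩
  obtain ⟨b, c, hc0, hbc⟩ := pts_toFrac_frac (K := K) q'.asIdeal (δ' z)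
  have e3 : ∀ x : R', δ (toFrac (K := K) q'.asIdeal x) = γ x := fun x =>
    congrArg (fun g : R' →ₐ[K] _ => g x) hδ
  refine ⟨b, c, ?_, ?_⟩
  · rw [← e3]
    exact (map_ne_zero δ).mpr hc0
  · have e4 := congrArg δ hbc
    rw [map_mul, h3, e3, e3] at e4
    exact e4

theorem toFrac_frac (q : Ideal R) [q.IsPrime] (z : FractionRing (R ⧸ q)) :
    ∃ b c : R, toFrac (K := K) q c ≠ 0 ∧ z * toFrac (K := K) q c = toFrac (K := K) q b :=
  pts_toFrac_frac q z

end two

section transl

variable {R : Type u} [CommRing R] [Algebra K R] (j : (avf f L hc).pt R)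

/-- the chart translated by `b` -/
noncomputable def jb (b : (avf f L hc).pt K) : (avf f L hc).pt R := j + (avf f L hc).cst R b

theorem hom_jb (b : (avf f L hc).pt K) : hom (jb j b) = hom j ≫ translHom f L hc b :=
  hom_add_cst j b

theorem jb_zero : jb j 0 = j := by
  rw [jb, AVF.cst_zero, add_zero]

/-- (`translHom b` is an isomorphism: `transl f L hc b`) -/
theorem jb_isOpenImmersion [IsOpenImmersion (hom j)] (b : (avf f L hc).pt K) :
    IsOpenImmersion (hom (jb j b)) := by
  have h0 : IsIso (translHom f L hc b) := (transl f L hc b).isIso_hom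
  rw [hom_jb]
  infer_instance

theorem map_jb {S : Type u} [CommRing S] [Algebra K S] (w : R →ₐ[K] S) (b : (avf f L hc).pt K) :
    (avf f L hc).map w (jb j b) = (avf f L hc).map w j + (avf f L hc).cst S b := by
  rw [jb, (avf f L hc).map_add, AVF.map_cst]

/-- a `K`-point `ε` of the chart with `j ∘ ε = 0`: the point `ker ε` of the translated chart is `ptK b`
(`hom_jb`, `translHom_ptK`, `specA_closedPoint`, `hom_map`) -/
theorem jb_base_ker (ε : R →ₐ[K] K) (hε : (avf f L hc).map ε j = 0) (b : (avf f L hc).pt K)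
    (p : PrimeSpectrum R) (hp : p.asIdeal = RingHom.ker ε) :
    (hom (jb j b)).base p = ptK f L hc b := by
  have h1 : (specA ε).base (IsLocalRing.closedPoint K) = p :=
    PrimeSpectrum.ext ((specA_closedPoint ε _).trans hp.symm)
  have h2 : (hom j).base p = ptK f L hc 0 := by
    rw [← hε, ← h1]
    rfl
  have h3 : (hom (jb j b)).base p = (translHom f L hc b).base ((hom j).base p) := by
    rw [hom_jb]
    rfl
  rw [h3, h2, translHom_ptK, zero_add]

end transl

/-- the closure of a non generic point is not everything (`genericPoint_spec`, `IsGenericPoint`, specialization is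
antisymmetric in a `T0` space: if `genericPoint ∈ closure {ξ}` then `ξ ⤳ genericPoint` and `genericPoint ⤳ ξ`) -/
theorem closure_ne_univ [IsIntegral A] (ξ : A) (hξ : ξ ≠ genericPoint A) :
    closure ({ξ} : Set A) ≠ Set.univ := by
  intro h
  have h1 : IsGenericPoint ξ (Set.univ : Set A) := h
  exact hξ (h1.eq (genericPoint_spec A))

/-- a nonzero prime of a chart is not the generic point (`chart_genericPoint`, injectivity of an open immersion) -/
theorem chart_ne_genericPoint [IsIntegral A] {R : Type u} [CommRing R] [Algebra K R] [IsDomain R]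
    (j : (avf f L hc).pt R) [IsOpenImmersion (hom j)] (p : PrimeSpectrum R) (hp : p.asIdeal ≠ ⊥) :
    (hom j).base p ≠ genericPoint A := by
  intro h
  have h0 := h.trans (chart_genericPoint f L hc j).symm
  have h1 : p = (⟨⊥, Ideal.isPrime_bot⟩ : PrimeSpectrum R) := (hom j).isOpenEmbedding.injective h0
  exact hp (congrArg PrimeSpectrum.asIdeal h1)

/-- `A` is separated as an absolute scheme -/
theorem isSeparated_A (f : A ⟶ Spec (CommRingCat.of K)) [IsSeparated f] : A.IsSeparated := by
  refine ⟨?_⟩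
  rw [← terminal.comp_from f]
  infer_instance

end Fermat.Agent.S26
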