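/-
S26 / Sch / CD / Main : assembly of `CartDiv (geoOf f L hc hA g) P`.
-/
import Fermat.Agent.S26.Sch.CD.Pts
import Fermat.Agent.S26.Sch.CD.Prin
import Fermat.Agent.S26.Sch.CD.Cart
import Fermat.Agent.S26.Sch.CD.Ident
import Fermat.Agent.S26.Sch.CD.Alg

set_option autoImplicit false

open CategoryTheory CategoryTheory.Limits AlgebraicGeometry NeronModelInfra GoodReductionJacobian
  TopologicalSpace

universe u

namespace Fermat.Agent.S26

variable {K : Type u} [Field K] {A : Scheme.{u}} (f : A ⟶ Spec (CommRingCat.of K))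
  (L : RelativeGroupLaw K f) (hc : L.IsCommutative) (hA : AbelianSchemePropertyBundle K f) (g : ℕ)
  [SmoothOfRelativeDimension g f]

/-- the generic point of `V(P)` -/
noncomputable def xiP (P : Ideal (R0 f L hc g)) [hP : P.IsPrime] : A :=
  (hom (j0 f L hc g)).base (⟨P, hP⟩ : PrimeSpectrum (R0 f L hc g))

/-- `V`, the closure of `V(P)` in `A` -/
noncomputable def ZP (P : Ideal (R0 f L hc g)) [P.IsPrime] : Closeds A :=
  ⟨closure {xiP f L hc g P}, isClosed_closure⟩

/-- the ideal of `(V - b) ∩ U₀` -/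
noncomputable def PaP (P : Ideal (R0 f L hc g)) [P.IsPrime] (b : (avf f L hc).pt K) :
    Ideal (R0 f L hc g) :=
  chI (hom (jb (j0 f L hc g) b)) (closure {xiP f L hc g P})

theorem PaP_zero (P : Ideal (R0 f L hc g)) [hP : P.IsPrime] : PaP f L hc g P 0 = P := by
  have := j0_isOpenImmersion f L hc g
  have h1 : PaP f L hc g P 0 = chI (hom (j0 f L hc g)) (closure {xiP f L hc g P}) :=
    congrArg (fun j => chI (hom j) (closure {xiP f L hc g P})) (jb_zero (j0 f L hc g))
  exact h1.trans (chI_eq (hom (j0 f L hc g)) (⟨P, hP⟩ : PrimeSpectrum (R0 f L hc g)))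

theorem PaP_alt (P : Ideal (R0 f L hc g)) [hP : P.IsPrime] (b : (avf f L hc).pt K) :
    PaP f L hc g P b = ⊤ ∨ ((PaP f L hc g P b).IsPrime ∧
      ∃ γ : R0 f L hc g →ₐ[K] FractionRing (R0 f L hc g ⧸ P), RingHom.ker γ = PaP f L hc g P b ∧
        (∀ z : FractionRing (R0 f L hc g ⧸ P), ∃ x y : R0 f L hc g, γ y ≠ 0 ∧ z * γ y = γ x) ∧
        (avf f L hc).map γ (j0 f L hc g) + (avf f L hc).cst _ b =
          (avf f L hc).map (toFrac P) (j0 f L hc g)) := by
  have := j0_isOpenImmersion f L hc g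
  have := jb_isOpenImmersion (j0 f L hc g) b
  by_cases h : xiP f L hc g P ∈ Set.range (hom (jb (j0 f L hc g) b)).base
  · right
    obtain ⟨q', hq'⟩ := h
    have h1 : PaP f L hc g P b = q'.asIdeal := by
      unfold PaP
      rw [← hq']
      exact chI_eq _ q'
    obtain ⟨γ, hk, hfr, hγ⟩ := chart_frac (j0 f L hc g) (jb (j0 f L hc g) b) P q' hq'.symm
    refine ⟨h1 ▸ q'.isPrime, γ, hk.trans h1.symm, hfr, ?_⟩
    rw [← map_jb]
    exact hγ
  · left
    exact chI_eq_top _ _ h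

variable [IsAlgClosed K]

/-- local principality in the translated chart -/
theorem PaP_lp (P : Ideal (R0 f L hc g)) [hP : P.IsPrime]
    (htr : Algebra.trdeg K (R0 f L hc g ⧸ P) + 1 = g) (b : (avf f L hc).pt K)
    (ε : R0 f L hc g →ₐ[K] K) :
    ∃ h ∈ PaP f L hc g P b, ∃ s : R0 f L hc g, ε s ≠ 0 ∧
      ∀ p ∈ PaP f L hc g P b, ∃ c, s * p = c * h := by
  rcases PaP_alt f L hc g P b with h | ⟨hpr, γ, hk, hfr, -⟩
  · exact ⟨1, h ▸ Submodule.mem_top, 1, by simp, fun p _ => ⟨p, by ring⟩⟩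
  · have := hpr
    have h1 := lp_trdeg K (R0 f L hc g) (FractionRing (R0 f L hc g ⧸ P)) γ (toFrac P) hfr
      (toFrac_frac P)
    rw [hk, ker_toFrac] at h1
    exact lp_alg K (R0 f L hc g) g (etc0 f L hc g).y (etc0 f L hc g).et ε _ (h1 ▸ htr)

include hA in
/-- **SCH-C** -/
theorem nonempty_cartDiv (P : Ideal (R0 f L hc g)) [hP : P.IsPrime]
    (htr : Algebra.trdeg K (R0 f L hc g ⧸ P) + 1 = g) :
    Nonempty (CartDiv (geoOf f L hc hA g) P) := by
  have := hA.proper
  have := isIntegral_A f L hc hA g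
  have := R0_isDomain f L hc hA g
  have := j0_isOpenImmersion f L hc g
  have : A.IsSeparated := isSeparated_A f
  have : JacobsonSpace A := LocallyOfFiniteType.jacobsonSpace f
  have : CompactSpace A := QuasiCompact.compactSpace_of_compactSpace f
  -- the ideal sheaf
  set Z := ZP f L hc g P with hZ
  have hPne : P ≠ ⊥ := lp_ne_bot K (R0 f L hc g) g (etc0 f L hc g).y (etc0 f L hc g).et P htr
  have hZne : (Z : Set A) ≠ Set.univ :=
    closure_ne_univ _ (chart_ne_genericPoint (j0 f L hc g) ⟨P, hP⟩ hPne)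
  -- local principality
  obtain ⟨ε, hε⟩ := chart_origin (j0 f L hc g) (j0_mem f L hc g)
  have hlp : ∀ x : A, IsClosed {x} → ∃ (U : A.affineOpens) (φ : Γ(A, U)),
      x ∈ U.1 ∧ (Scheme.IdealSheafData.vanishingIdeal Z).ideal U = Ideal.span {φ} := by
    intro x hx
    obtain ⟨b, rfl⟩ := exists_ptK_eq f L hc x hx
    have := jb_isOpenImmersion (j0 f L hc g) b
    obtain ⟨h, hh, s, hs, hsp⟩ := PaP_lp f L hc g P htr b ε
    obtain ⟨φ, hφ⟩ := ideal_image_eq_span (hom (jb (j0 f L hc g) b)) Z s h hh hsp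
    refine ⟨⟨_, isAffineOpen_image_Ds (hom (jb (j0 f L hc g) b)) s⟩, φ, ?_, hφ⟩
    have hpr : (RingHom.ker ε).IsPrime := RingHom.ker_isPrime _
    refine ⟨(⟨RingHom.ker ε, hpr⟩ : PrimeSpectrum (R0 f L hc g)), ?_,
      jb_base_ker (j0 f L hc g) ε hε b _ rfl⟩
    exact hs
  obtain ⟨n, U, hUa, hU, c, a, hsec, hgen⟩ := exists_cartier
    (Scheme.IdealSheafData.vanishingIdeal Z) (vanishingIdeal_ideal_ne_bot Z hZne) hlp
  have hrange : ∀ b : (avf f L hc).pt K,
      LinearMap.range (c.can f L hc hU hUa hsec (jb (j0 f L hc g) b)) = PaP f L hc g P b := by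
    intro b
    have := jb_isOpenImmersion (j0 f L hc g) b
    exact c.range_can_eq f L hc hU hUa hsec _ _ fun i s hs r =>
      loc_chI (hom (jb (j0 f L hc g) b)) Z ⟨U i, hUa i⟩ (a i) (hgen i) s hs r
  exact ⟨{
    L := c.lbun f L hc hU hUa
    can := fun u => c.can f L hc hU hUa hsec u
    can_bc := fun φ _ _ h m => c.can_bc f L hc hU hUa hsec φ h m
    Pa := PaP f L hc g P
    Pa_zero := PaP_zero f L hc g P
    range_can := fun b S _ _ w => by
      have h1 := c.range_can_map f L hc hU hUa hsec w (map_jb (j0 f L hc g) w b)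
      exact h1.trans (congrArg (Ideal.map w) (hrange b))
    Pa_alt := PaP_alt f L hc g P }⟩

end Fermat.Agent.S26
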